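import Fermat.Agent.S38.H781.IAMod
import Fermat.Agent.S38T.IA.Hecke.Spec3

/-!
# Row S59, cell LO-IA (B2), HECKE-T: leaf IA-MOD, the `ty`-generic twin  (helper781)

`iaMod_T : IA.Hecke.IAModStatement_T` VERBATIM (`S38T/IA/Hecke/Spec3.lean`, helper3 @166e8dc9f):
for every odd prime `p` and every type `ty` at `p`, the Hecke ring `T_Q` of the package
`P_Q : HeckePkg p 𝒪 ρ̄ ty Smin (Smin ∪ Piv ∪ Q)` acts on the localisation `V ⊆ X_K(𝒪)`,
`K = KIA_T p ty Smin pv qv`, through the twisted operators `⟨ℓ⟩^h T_ℓ`, with `h` half at the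
pivots and at the Taylor–Wiles primes.

Nothing new is proved: `iaMod_core_h781` (`S38/H781/IAMod.lean`) is already stated for an
arbitrary type `t` at `p`; neither `3 ≤ p` nor `IsPTypeAt` is used (`p ≠ 2` comes from
`ResidualHyp`).
-/

set_option autoImplicit false
set_option linter.unusedSectionVars false
set_option linter.style.haveILetI false
set_option maxHeartbeats 1000000
set_option synthInstance.maxHeartbeats 400000

noncomputable section

namespace Fermat.Agent.S38.H781

open CongruenceSubgroup IsLocalRing CuspForm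
open Fermat.Agent.S59.Arch Fermat.Agent.S59.TW.H959 Fermat.Agent.S59.TW.H653
open Fermat.Agent.S59.TW.Aut Fermat.Agent.S59.TW
open Fermat.Agent.S38.IA Fermat.Agent.S38.IA.Hecke
open scoped MatrixGroups

/-- **Leaf IA-MOD, `ty`-generic twin.** -/
theorem iaMod_T : IAModStatement_T := by
  intro p _ _ 𝒪 _ _ _ _ _ _ ρbar Smin hRH ty _ Piv hPiv k pv hpv hpvPiv n r qv hq _ PQ α _ V hV
  have hp : p.Prime := Fact.out
  have hpodd : Odd p := hp.odd_of_ne_two hRH.hp2
  obtain ⟨hqinj, hqprop, -⟩ := hq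
  have hpvmem : ∀ i, pv i ∈ Piv := fun i => by
    rw [← hpvPiv]
    exact Finset.mem_image_of_mem _ (Finset.mem_univ i)
  have hdisj : ∀ i j, pv i ≠ qv j := fun i j hij =>
    (hqprop j).2.1 (Finset.mem_union_right _ (hij ▸ hpvmem i))
  have hqqinj : Function.Injective (Sum.elim pv qv) :=
    injective_sum_elim_h781 pv qv hpv hqinj hdisj
  have hqqP : ∀ s, (Sum.elim pv qv s).Prime ∧ Sum.elim pv qv s ∉ Smin := by
    rintro (i | j)
    · exact ⟨(hPiv _ (hpvmem i)).1, (hPiv _ (hpvmem i)).2.1⟩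
    · exact ⟨(hqprop j).1, fun hmem => (hqprop j).2.1 (Finset.mem_union_left _ hmem)⟩
  have hset : Smin ∪ Piv ∪ Finset.univ.image qv =
      Smin ∪ Finset.univ.image (Sum.elim pv qv) := by
    rw [image_sum_elim_h781, hpvPiv, Finset.union_assoc]
  obtain ⟨h, a, h1, h2, -, ha⟩ := exists_isHalf_two_h781 p pv qv hpodd
  obtain ⟨act, hact⟩ := iaMod_core_h781 (t := ty) (Sum.elim pv qv) hRH hqqinj hqqP hset PQ V hV
    (isHalf_sum_h781 p pv qv h1 h2) ha
  exact ⟨h, act, h1, h2, hact⟩

end Fermat.Agent.S38.H781
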